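import Mathlib

/-!
# Program U, leaf (G0) : the multiplicity lemma (prefix `u5g`), Mathlib only

A polynomial `p` over a field with `22 p p'''' - 66 p' p''' + 45 p''² = 0` (fourth transvectant zero)
has only roots of multiplicity `d` with `d (d - 1) (d - 11) (d - 12) = 0` in the field.

* `u5gT4 p` : the differential expression;
* `u5g_T4_comp` : it commutes with translations;
* `u5g_coeff_mul_iterate` : the lowest coefficient of `p^{(s)} p^{(t)}`;
* `u5g_T4_coeff` : the coefficient of `X^{2d-4}` in `u5gT4 q` when `q` vanishes to order `d` at `0`;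
* `u5g_mult` : the multiplicity lemma.
-/

set_option autoImplicit false
set_option linter.unusedVariables false

namespace Fermat.Agent.U5

open Polynomial

variable {k : Type*} [Field k]

/-- the fourth transvectant, in the affine chart -/
noncomputable def u5gT4 (p : k[X]) : k[X] :=
  22 * p * derivative^[4] p - 66 * derivative p * derivative^[3] p + 45 * derivative^[2] p ^ 2

theorem u5g_iterate_derivative_comp (p : k[X]) (r : k) (n : ℕ) :
    derivative^[n] (p.comp (X + C r)) = (derivative^[n] p).comp (X + C r) := by
  induction n generalizing p with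
  | zero => rfl
  | succ n ih =>
    rw [Function.iterate_succ_apply, Function.iterate_succ_apply,
      derivative_comp, derivative_add, derivative_X, derivative_C, add_zero, one_mul, ih]

theorem u5g_T4_comp (p : k[X]) (r : k) :
    u5gT4 (p.comp (X + C r)) = (u5gT4 p).comp (X + C r) := by
  have h1 := u5g_iterate_derivative_comp p r 1
  rw [Function.iterate_one] at h1
  unfold u5gT4
  rw [u5g_iterate_derivative_comp, u5g_iterate_derivative_comp, u5g_iterate_derivative_comp, h1]
  simp [add_comp, sub_comp, mul_comp, pow_comp]

/-- the lowest coefficient of a product of two iterated derivatives -/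
theorem u5g_coeff_mul_iterate (q : k[X]) (d s t n : ℕ) (hq : ∀ i < d, q.coeff i = 0)
    (hn : n + s + t = 2 * d) :
    (derivative^[s] q * derivative^[t] q).coeff n =
      ((d.descFactorial s * d.descFactorial t : ℕ) : k) * q.coeff d ^ 2 := by
  rw [coeff_mul]
  have hterm : ∀ x ∈ Finset.HasAntidiagonal.antidiagonal n, x.1 + s ≠ d →
      (derivative^[s] q).coeff x.1 * (derivative^[t] q).coeff x.2 = 0 := by
    intro x hx hne
    rw [Finset.HasAntidiagonal.mem_antidiagonal] at hx
    rw [coeff_iterate_derivative, coeff_iterate_derivative]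
    rcases Nat.lt_or_gt_of_ne hne with h | h
    · rw [hq _ h, smul_zero, zero_mul]
    · rw [hq (x.2 + t) (by omega), smul_zero, mul_zero]
  by_cases hs : s ≤ d
  · by_cases ht : t ≤ d
    · rw [Finset.sum_eq_single (d - s, d - t)]
      · rw [coeff_iterate_derivative, coeff_iterate_derivative, Nat.sub_add_cancel hs,
          Nat.sub_add_cancel ht, nsmul_eq_mul, nsmul_eq_mul, Nat.cast_mul]
        ring
      · intro x hx hne
        apply hterm x hx
        intro h
        apply hne
        rw [Finset.HasAntidiagonal.mem_antidiagonal] at hx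
        ext
        · show x.1 = d - s
          omega
        · show x.2 = d - t
          omega
      · intro h
        exfalso
        apply h
        rw [Finset.HasAntidiagonal.mem_antidiagonal]
        show d - s + (d - t) = n
        omega
    · have ht' : d < t := not_le.mp ht
      rw [Nat.descFactorial_of_lt ht', mul_zero, Nat.cast_zero, zero_mul]
      apply Finset.sum_eq_zero
      intro x hx
      have hx' := Finset.HasAntidiagonal.mem_antidiagonal.1 hx
      exact hterm x hx (by omega)
  · have hs' : d < s := not_le.mp hs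
    rw [Nat.descFactorial_of_lt hs', zero_mul, Nat.cast_zero, zero_mul]
    apply Finset.sum_eq_zero
    intro x hx
    exact hterm x hx (by omega)

/-- the integer `22 (d)_4 - 66 (d)_1 (d)_3 + 45 (d)_2 ^ 2` -/
def u5gN (d : ℕ) : ℤ :=
  22 * (d.descFactorial 4 : ℤ) - 66 * (d.descFactorial 1 * d.descFactorial 3 : ℕ) +
    45 * (d.descFactorial 2 * d.descFactorial 2 : ℕ)

/-- the coefficient of `X^{2d-4}` in `u5gT4 q` when `q` vanishes to order `d ≥ 2` at `0` -/
theorem u5g_T4_coeff (q : k[X]) (d : ℕ) (hd : 2 ≤ d) (hq : ∀ i < d, q.coeff i = 0) :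
    (u5gT4 q).coeff (2 * d - 4) = (u5gN d : k) * q.coeff d ^ 2 := by
  have h04 := u5g_coeff_mul_iterate q d 0 4 (2 * d - 4) hq (by omega)
  have h13 := u5g_coeff_mul_iterate q d 1 3 (2 * d - 4) hq (by omega)
  have h22 := u5g_coeff_mul_iterate q d 2 2 (2 * d - 4) hq (by omega)
  rw [Function.iterate_zero, id] at h04
  rw [Function.iterate_one] at h13
  unfold u5gT4
  have e1 : (22 * q * derivative^[4] q : k[X]) = C (22 : k) * (q * derivative^[4] q) := by
    rw [map_ofNat]; ring
  have e2 : (66 * derivative q * derivative^[3] q : k[X]) =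
      C (66 : k) * (derivative q * derivative^[3] q) := by
    rw [map_ofNat]; ring
  have e3 : (45 * derivative^[2] q ^ 2 : k[X]) =
      C (45 : k) * (derivative^[2] q * derivative^[2] q) := by
    rw [map_ofNat]; ring
  rw [e1, e2, e3, coeff_add, coeff_sub, coeff_C_mul, coeff_C_mul, coeff_C_mul, h04, h13, h22]
  unfold u5gN
  simp only [Nat.descFactorial_zero, one_mul]
  push_cast
  ring

/-- **the multiplicity lemma** : a root of multiplicity `d ≥ 2` of a polynomial with vanishing fourth
transvectant has `u5gN d = 0` in `k`. -/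
theorem u5g_mult (p : k[X]) (hp : p ≠ 0) (hT : u5gT4 p = 0) (r : k)
    (hd : 2 ≤ p.rootMultiplicity r) : ((u5gN (p.rootMultiplicity r) : ℤ) : k) = 0 := by
  set q := p.comp (X + C r) with hqdef
  set d := p.rootMultiplicity r with hddef
  have hdq : d = q.natTrailingDegree := rootMultiplicity_eq_natTrailingDegree
  have hq0 : q ≠ 0 := by
    intro h
    apply hp
    have h2 := congrArg (fun f => f.comp (X - C r)) h
    simp only [hqdef, comp_assoc, add_comp, X_comp, C_comp, sub_add_cancel, comp_X, zero_comp] at h2
    exact h2
  have hq : ∀ i < d, q.coeff i = 0 := fun i hi =>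
    coeff_eq_zero_of_lt_natTrailingDegree (hdq ▸ hi)
  have hcd : q.coeff d ≠ 0 := by
    rw [hdq]
    exact trailingCoeff_nonzero_iff_nonzero.2 hq0
  have hTq : u5gT4 q = 0 := by rw [hqdef, u5g_T4_comp, hT, zero_comp]
  have key := u5g_T4_coeff q d hd hq
  rw [hTq, coeff_zero] at key
  rcases mul_eq_zero.1 key.symm with h | h
  · exact h
  · exact absurd ((pow_eq_zero_iff two_ne_zero).1 h) hcd

/-- the values of `u5gN` -/
theorem u5gN_eq (d : ℕ) (hd : d ≤ 12) :
    u5gN d = (d : ℤ) * (d - 1) * (d - 11) * (d - 12) := by
  interval_cases d <;> simp [u5gN, Nat.descFactorial]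

end Fermat.Agent.U5
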