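import Mathlib
import Fermat.Agent.U5.FamPoly

/-!
# Program U, leaf (G0) : the differential identities of the family (prefix `u5g`)

`D := D(1, X)`, `A := A(1, X)` in `R[X]` (`R` any commutative ring, `a b : R`), `D_k` the `k`-th derivative.

* `u5gD1 ... u5gD4` : the explicit derivatives of `D`; `u5g_derivative_D`, ..., `u5g_iterate_D4`;
* `u5g_ode` (I2) : `22 D D_4 - 66 D_1 D_3 + 45 D_2 ^ 2 = 0` (the fourth transvectant of the icosahedral
  form vanishes);
* `u5g_hess` (I3) : `5808 A = 132 D D_2 - 121 D_1 ^ 2` (the Hessian).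
-/

set_option autoImplicit false
set_option linter.unusedSimpArgs false
set_option linter.unusedVariables false

namespace Fermat.Agent.U5

open Polynomial

variable {R : Type*} [CommRing R]

/-- `D(1, X)` -/
noncomputable def u5gD (a b : R) : R[X] := u5fD (C a) (C b) 1 X

/-- `A(1, X)` -/
noncomputable def u5gA (a b : R) : R[X] := u5fA (C a) (C b) 1 X

/-- `B(1, X)` -/
noncomputable def u5gB (a b : R) : R[X] := u5fB (C a) (C b) 1 X

/-- the first derivative of `D(1, X)`, explicitly -/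
noncomputable def u5gD1 (a b : R) : R[X] :=
  1 * u5cD1 (C a) (C b) +
  2 * u5cD2 (C a) (C b) * X +
  3 * u5cD3 (C a) (C b) * X ^ 2 +
  4 * u5cD4 (C a) (C b) * X ^ 3 +
  5 * u5cD5 (C a) (C b) * X ^ 4 +
  6 * u5cD6 (C a) (C b) * X ^ 5 +
  7 * u5cD7 (C a) (C b) * X ^ 6 +
  8 * u5cD8 (C a) (C b) * X ^ 7 +
  9 * u5cD9 (C a) (C b) * X ^ 8 +
  10 * u5cD10 (C a) (C b) * X ^ 9 +
  11 * u5cD11 (C a) (C b) * X ^ 10 +
  12 * u5cD12 (C a) (C b) * X ^ 11

/-- the second derivative of `D(1, X)`, explicitly -/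
noncomputable def u5gD2 (a b : R) : R[X] :=
  2 * u5cD2 (C a) (C b) +
  6 * u5cD3 (C a) (C b) * X +
  12 * u5cD4 (C a) (C b) * X ^ 2 +
  20 * u5cD5 (C a) (C b) * X ^ 3 +
  30 * u5cD6 (C a) (C b) * X ^ 4 +
  42 * u5cD7 (C a) (C b) * X ^ 5 +
  56 * u5cD8 (C a) (C b) * X ^ 6 +
  72 * u5cD9 (C a) (C b) * X ^ 7 +
  90 * u5cD10 (C a) (C b) * X ^ 8 +
  110 * u5cD11 (C a) (C b) * X ^ 9 +
  132 * u5cD12 (C a) (C b) * X ^ 10

/-- the third derivative of `D(1, X)`, explicitly -/
noncomputable def u5gD3 (a b : R) : R[X] :=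
  6 * u5cD3 (C a) (C b) +
  24 * u5cD4 (C a) (C b) * X +
  60 * u5cD5 (C a) (C b) * X ^ 2 +
  120 * u5cD6 (C a) (C b) * X ^ 3 +
  210 * u5cD7 (C a) (C b) * X ^ 4 +
  336 * u5cD8 (C a) (C b) * X ^ 5 +
  504 * u5cD9 (C a) (C b) * X ^ 6 +
  720 * u5cD10 (C a) (C b) * X ^ 7 +
  990 * u5cD11 (C a) (C b) * X ^ 8 +
  1320 * u5cD12 (C a) (C b) * X ^ 9

/-- the fourth derivative of `D(1, X)`, explicitly -/
noncomputable def u5gD4 (a b : R) : R[X] :=
  24 * u5cD4 (C a) (C b) +
  120 * u5cD5 (C a) (C b) * X +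
  360 * u5cD6 (C a) (C b) * X ^ 2 +
  840 * u5cD7 (C a) (C b) * X ^ 3 +
  1680 * u5cD8 (C a) (C b) * X ^ 4 +
  3024 * u5cD9 (C a) (C b) * X ^ 5 +
  5040 * u5cD10 (C a) (C b) * X ^ 6 +
  7920 * u5cD11 (C a) (C b) * X ^ 7 +
  11880 * u5cD12 (C a) (C b) * X ^ 8

set_option maxHeartbeats 2000000 in
theorem u5g_derivative_D (a b : R) : derivative (u5gD a b) = u5gD1 a b := by
  unfold u5gD u5gD1 u5fD
  simp only [u5cD0, u5cD1, u5cD2, u5cD3, u5cD4, u5cD5, u5cD6, u5cD7, u5cD8, u5cD9, u5cD10, u5cD11, u5cD12,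
    derivative_add, derivative_mul, derivative_X_pow, derivative_C, derivative_one,
    derivative_pow, derivative_X, derivative_ofNat, derivative_neg, derivative_sub, map_zero, Nat.cast_ofNat,
    C_0, Nat.cast_one, map_one, Nat.cast_zero, map_ofNat]
  simp only [one_pow, mul_one, zero_mul, mul_zero, zero_add, add_zero, pow_zero, pow_one]
  ring

set_option maxHeartbeats 2000000 in
theorem u5g_derivative_D1 (a b : R) : derivative (u5gD1 a b) = u5gD2 a b := by
  unfold u5gD1 u5gD2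
  simp only [u5cD0, u5cD1, u5cD2, u5cD3, u5cD4, u5cD5, u5cD6, u5cD7, u5cD8, u5cD9, u5cD10, u5cD11, u5cD12,
    derivative_add, derivative_mul, derivative_X_pow, derivative_C, derivative_one,
    derivative_pow, derivative_X, derivative_ofNat, derivative_neg, derivative_sub, map_zero, Nat.cast_ofNat,
    C_0, Nat.cast_one, map_one, Nat.cast_zero, map_ofNat]
  simp only [one_pow, mul_one, zero_mul, mul_zero, zero_add, add_zero, pow_zero, pow_one]
  ring

set_option maxHeartbeats 2000000 in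
theorem u5g_derivative_D2 (a b : R) : derivative (u5gD2 a b) = u5gD3 a b := by
  unfold u5gD2 u5gD3
  simp only [u5cD0, u5cD1, u5cD2, u5cD3, u5cD4, u5cD5, u5cD6, u5cD7, u5cD8, u5cD9, u5cD10, u5cD11, u5cD12,
    derivative_add, derivative_mul, derivative_X_pow, derivative_C, derivative_one,
    derivative_pow, derivative_X, derivative_ofNat, derivative_neg, derivative_sub, map_zero, Nat.cast_ofNat,
    C_0, Nat.cast_one, map_one, Nat.cast_zero, map_ofNat]
  simp only [one_pow, mul_one, zero_mul, mul_zero, zero_add, add_zero, pow_zero, pow_one]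
  ring

set_option maxHeartbeats 2000000 in
theorem u5g_derivative_D3 (a b : R) : derivative (u5gD3 a b) = u5gD4 a b := by
  unfold u5gD3 u5gD4
  simp only [u5cD0, u5cD1, u5cD2, u5cD3, u5cD4, u5cD5, u5cD6, u5cD7, u5cD8, u5cD9, u5cD10, u5cD11, u5cD12,
    derivative_add, derivative_mul, derivative_X_pow, derivative_C, derivative_one,
    derivative_pow, derivative_X, derivative_ofNat, derivative_neg, derivative_sub, map_zero, Nat.cast_ofNat,
    C_0, Nat.cast_one, map_one, Nat.cast_zero, map_ofNat]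
  simp only [one_pow, mul_one, zero_mul, mul_zero, zero_add, add_zero, pow_zero, pow_one]
  ring

theorem u5g_iterate_D2 (a b : R) : derivative^[2] (u5gD a b) = u5gD2 a b := by
  rw [Function.iterate_succ, Function.iterate_one, Function.comp_apply, u5g_derivative_D,
    u5g_derivative_D1]

theorem u5g_iterate_D3 (a b : R) : derivative^[3] (u5gD a b) = u5gD3 a b := by
  rw [Function.iterate_succ, Function.comp_apply, u5g_derivative_D, Function.iterate_succ,
    Function.iterate_one, Function.comp_apply, u5g_derivative_D1, u5g_derivative_D2]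

theorem u5g_iterate_D4 (a b : R) : derivative^[4] (u5gD a b) = u5gD4 a b := by
  rw [Function.iterate_succ, Function.comp_apply, u5g_derivative_D, Function.iterate_succ,
    Function.comp_apply, u5g_derivative_D1, Function.iterate_succ, Function.iterate_one,
    Function.comp_apply, u5g_derivative_D2, u5g_derivative_D3]

set_option maxHeartbeats 4000000 in
/-- (I2) the fourth transvectant vanishes -/
theorem u5g_ode_explicit (a b : R) :
    22 * u5gD a b * u5gD4 a b - 66 * u5gD1 a b * u5gD3 a b + 45 * u5gD2 a b ^ 2 = 0 := by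
  unfold u5gD u5gD1 u5gD2 u5gD3 u5gD4 u5fD
  simp only [u5cD0, u5cD1, u5cD2, u5cD3, u5cD4, u5cD5, u5cD6, u5cD7, u5cD8, u5cD9, u5cD10, u5cD11, u5cD12]
  ring

set_option maxHeartbeats 4000000 in
/-- (I3) the Hessian -/
theorem u5g_hess_explicit (a b : R) :
    5808 * u5gA a b = 132 * u5gD a b * u5gD2 a b - 121 * u5gD1 a b ^ 2 := by
  unfold u5gD u5gD1 u5gD2 u5gA u5fD u5fA
  simp only [u5cD0, u5cD1, u5cD2, u5cD3, u5cD4, u5cD5, u5cD6, u5cD7, u5cD8, u5cD9, u5cD10, u5cD11, u5cD12,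
    u5cA0, u5cA1, u5cA2, u5cA3, u5cA4, u5cA5, u5cA6, u5cA7, u5cA8, u5cA9, u5cA10, u5cA11, u5cA12, u5cA13, u5cA14, u5cA15, u5cA16, u5cA17, u5cA18, u5cA19, u5cA20]
  ring

/-- (I2) -/
theorem u5g_ode (a b : R) :
    22 * u5gD a b * derivative^[4] (u5gD a b) - 66 * derivative (u5gD a b) * derivative^[3] (u5gD a b)
      + 45 * derivative^[2] (u5gD a b) ^ 2 = 0 := by
  rw [u5g_iterate_D4, u5g_iterate_D3, u5g_iterate_D2, u5g_derivative_D]
  exact u5g_ode_explicit a b

/-- (I3) -/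
theorem u5g_hess (a b : R) :
    5808 * u5gA a b = 132 * u5gD a b * derivative^[2] (u5gD a b) - 121 * derivative (u5gD a b) ^ 2 := by
  rw [u5g_iterate_D2, u5g_derivative_D]
  exact u5g_hess_explicit a b

end Fermat.Agent.U5
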