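import Mathlib
import Fermat.Agent.U5.Gen.ODE
import Fermat.Agent.U5.Gen.Mult

/-!
# Program U, leaf (G0) : `D(1, X)` is separable and coprime to `A(1, X)` (prefix `u5g`)

Over a field `k` in which `1, …, 12` are invertible (characteristic `0` or `≥ 13`), for `a b : k` with
`4 (3a)³ + 27 b² ≠ 0` :

* `u5g_D_separable` : `D(1, X) = u5gD a b` is separable (hence squarefree);
* `u5g_D_coprime_A` : `IsCoprime (u5gD a b) (u5gA a b)`.

Proof : the multiplicity lemma (`Gen/Mult.lean`) with the differential identity (I2) leaves the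
multiplicities `1, 11, 12`; multiplicity `≥ 11` together with the normalisation
`D(1, X) = 1 + 0·X + 66 a X² + 220 b X³ + …` forces `a = -ρ⁻²`, `b = -2ρ⁻³`, i.e. `4 (3a)³ + 27 b² = 0`.
The Hessian identity (I3) `5808 A = 132 D D'' - 121 D'²` then gives the coprimality.
-/

set_option autoImplicit false
set_option linter.unusedSimpArgs false
set_option linter.unusedVariables false

namespace Fermat.Agent.U5

open Polynomial

section Coeff

variable {R : Type*} [CommRing R]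

theorem u5gD_eq (a b : R) : u5gD a b =
    C (u5cD0 a b) + C (u5cD1 a b) * X + C (u5cD2 a b) * X ^ 2 + C (u5cD3 a b) * X ^ 3 +
    C (u5cD4 a b) * X ^ 4 + C (u5cD5 a b) * X ^ 5 + C (u5cD6 a b) * X ^ 6 + C (u5cD7 a b) * X ^ 7 +
    C (u5cD8 a b) * X ^ 8 + C (u5cD9 a b) * X ^ 9 + C (u5cD10 a b) * X ^ 10 +
    C (u5cD11 a b) * X ^ 11 + C (u5cD12 a b) * X ^ 12 := by
  unfold u5gD u5fD
  simp only [u5cD0, u5cD1, u5cD2, u5cD3, u5cD4, u5cD5, u5cD6, u5cD7, u5cD8, u5cD9, u5cD10, u5cD11,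
    u5cD12, map_mul, map_add, map_sub, map_neg, map_pow, map_ofNat, map_one, map_zero]
  ring

theorem u5gD_coeff_zero (a b : R) : (u5gD a b).coeff 0 = 1 := by
  rw [u5gD_eq]
  simp [coeff_X_pow, u5cD0]

theorem u5gD_coeff_one (a b : R) : (u5gD a b).coeff 1 = 0 := by
  rw [u5gD_eq]
  simp [coeff_X_pow, u5cD1]

theorem u5gD_coeff_two (a b : R) : (u5gD a b).coeff 2 = 66 * a := by
  rw [u5gD_eq]
  simp only [coeff_add, coeff_C_mul_X_pow, coeff_C_mul_X, coeff_C]
  simp [u5cD2]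

theorem u5gD_coeff_three (a b : R) : (u5gD a b).coeff 3 = 220 * b := by
  rw [u5gD_eq]
  simp only [coeff_add, coeff_C_mul_X_pow, coeff_C_mul_X, coeff_C]
  simp [u5cD3]

theorem u5gD_coeff_twelve (a b : R) : (u5gD a b).coeff 12 = u5cD12 a b := by
  rw [u5gD_eq]
  simp [coeff_X_pow]

theorem u5gD_natDegree_le (a b : R) : (u5gD a b).natDegree ≤ 12 := by
  rw [u5gD_eq]
  compute_degree

theorem u5gD_ne_zero [Nontrivial R] (a b : R) : u5gD a b ≠ 0 := by
  intro h
  have := u5gD_coeff_zero a b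
  rw [h, coeff_zero] at this
  exact zero_ne_one this

/-- base change of the family polynomials -/
theorem u5gD_map {S : Type*} [CommRing S] (f : R →+* S) (a b : R) :
    (u5gD a b).map f = u5gD (f a) (f b) := by
  unfold u5gD u5fD
  simp only [u5cD0, u5cD1, u5cD2, u5cD3, u5cD4, u5cD5, u5cD6, u5cD7, u5cD8, u5cD9, u5cD10, u5cD11,
    u5cD12, Polynomial.map_add, Polynomial.map_mul, Polynomial.map_sub, Polynomial.map_neg,
    Polynomial.map_pow, Polynomial.map_ofNat, Polynomial.map_one, Polynomial.map_zero, map_C, map_X]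

theorem u5gA_map {S : Type*} [CommRing S] (f : R →+* S) (a b : R) :
    (u5gA a b).map f = u5gA (f a) (f b) := by
  unfold u5gA u5fA
  simp only [u5cA0, u5cA1, u5cA2, u5cA3, u5cA4, u5cA5, u5cA6, u5cA7, u5cA8, u5cA9, u5cA10, u5cA11,
    u5cA12, u5cA13, u5cA14, u5cA15, u5cA16, u5cA17, u5cA18, u5cA19, u5cA20,
    Polynomial.map_add, Polynomial.map_mul, Polynomial.map_sub, Polynomial.map_neg,
    Polynomial.map_pow, Polynomial.map_ofNat, Polynomial.map_one, Polynomial.map_zero, map_C, map_X]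

end Coeff

section Field

variable {k : Type*} [Field k]

/-- multiplicity `≥ 11` contradicts the normalisation of `D(1, X)` -/
theorem u5g_no_high (p : k[X]) (a b r : k) (hdeg : p.natDegree ≤ 12)
    (hdvd : (X - C r) ^ 11 ∣ p) (h0 : p.coeff 0 = 1) (h1 : p.coeff 1 = 0)
    (h2 : p.coeff 2 = 66 * a) (h3 : p.coeff 3 = 220 * b) (h66 : (66 : k) ≠ 0)
    (h220 : (220 : k) ≠ 0) : 4 * (3 * a) ^ 3 + 27 * b ^ 2 = 0 := by
  obtain ⟨h, rfl⟩ := hdvd
  have hh0 : h ≠ 0 := by
    rintro rfl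
    rw [mul_zero, coeff_zero] at h0
    exact zero_ne_one h0
  have hmon : ((X - C r) ^ 11 : k[X]).Monic := (monic_X_sub_C r).pow 11
  have hdeg11 : ((X - C r) ^ 11 : k[X]).natDegree = 11 := by
    rw [natDegree_pow, natDegree_X_sub_C, mul_one]
  have hdegh : h.natDegree ≤ 1 := by
    rw [hmon.natDegree_mul' hh0, hdeg11] at hdeg
    omega
  rw [eq_X_add_C_of_natDegree_le_one hdegh] at h0 h1 h2 h3
  set h1' := h.coeff 1
  set h0' := h.coeff 0
  set ρ := -r with hρ
  have hX : (X - C r : k[X]) = X + C ρ := by rw [hρ, C_neg, sub_eq_add_neg]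
  rw [hX] at h0 h1 h2 h3
  have c0 : ((X + C ρ) ^ 11 : k[X]).coeff 0 = ρ ^ 11 := by
    rw [coeff_X_add_C_pow]; simp
  have c1 : ((X + C ρ) ^ 11 : k[X]).coeff 1 = ρ ^ 10 * 11 := by
    rw [coeff_X_add_C_pow]; simp
  have c2 : ((X + C ρ) ^ 11 : k[X]).coeff 2 = ρ ^ 9 * 55 := by
    rw [coeff_X_add_C_pow]
    have : Nat.choose 11 2 = 55 := by decide
    rw [this]; simp
  have c3 : ((X + C ρ) ^ 11 : k[X]).coeff 3 = ρ ^ 8 * 165 := by
    rw [coeff_X_add_C_pow]
    have : Nat.choose 11 3 = 165 := by decide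
    rw [this]; simp
  have expand : ∀ n : ℕ, (((X + C ρ) ^ 11 : k[X]) * (C h1' * X + C h0')).coeff (n + 1) =
      ((X + C ρ) ^ 11 : k[X]).coeff n * h1' + ((X + C ρ) ^ 11 : k[X]).coeff (n + 1) * h0' := by
    intro n
    rw [mul_add, coeff_add, ← mul_assoc, coeff_mul_X, coeff_mul_C, coeff_mul_C]
  have expand0 : (((X + C ρ) ^ 11 : k[X]) * (C h1' * X + C h0')).coeff 0 =
      ((X + C ρ) ^ 11 : k[X]).coeff 0 * h0' := by
    rw [mul_add, coeff_add, ← mul_assoc, coeff_mul_C, mul_coeff_zero, coeff_X_zero, mul_zero,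
      zero_add]
  rw [expand0, c0] at h0
  rw [show (1 : ℕ) = 0 + 1 from rfl, expand, c0, c1] at h1
  rw [show (2 : ℕ) = 1 + 1 from rfl, expand, c1, c2] at h2
  rw [show (3 : ℕ) = 2 + 1 from rfl, expand, c2, c3] at h3
  have hρ0 : ρ ≠ 0 := by
    rintro h
    rw [h] at h0
    simp at h0
  have ha : a * ρ ^ 2 = -1 := by
    have : (66 : k) * (a * ρ ^ 2 + 1) = 0 := by
      linear_combination (-(ρ ^ 2)) * h2 + (11 * ρ) * h1 - 66 * h0
    rcases mul_eq_zero.1 this with h | h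
    · exact absurd h h66
    · exact eq_neg_of_add_eq_zero_left h
  have hb : b * ρ ^ 3 = -2 := by
    have : (220 : k) * (b * ρ ^ 3 + 2) = 0 := by
      linear_combination (-(ρ ^ 3)) * h3 + (55 * ρ) * h1 - 440 * h0
    rcases mul_eq_zero.1 this with h | h
    · exact absurd h h220
    · exact eq_neg_of_add_eq_zero_left h
  have key : (4 * (3 * a) ^ 3 + 27 * b ^ 2) * ρ ^ 6 = 0 := by
    have e : (4 * (3 * a) ^ 3 + 27 * b ^ 2) * ρ ^ 6 =
        108 * (a * ρ ^ 2) ^ 3 + 27 * (b * ρ ^ 3) ^ 2 := by ring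
    rw [e, ha, hb]
    ring
  rcases mul_eq_zero.1 key with h | h
  · exact h
  · exact absurd ((pow_eq_zero_iff (by norm_num)).1 h) hρ0

/-- `u5gN d ≠ 0` in `k` for `2 ≤ d ≤ 10` -/
theorem u5gN_ne_zero (hchar : ∀ n : ℕ, 0 < n → n < 13 → (n : k) ≠ 0) (d : ℕ) (hd2 : 2 ≤ d)
    (hd10 : d ≤ 10) : ((u5gN d : ℤ) : k) ≠ 0 := by
  have e : u5gN d = ((d * (d - 1) * (11 - d) * (12 - d) : ℕ) : ℤ) := by
    interval_cases d <;> simp [u5gN, Nat.descFactorial]
  rw [e, Int.cast_natCast, Nat.cast_mul, Nat.cast_mul, Nat.cast_mul]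
  exact mul_ne_zero (mul_ne_zero (mul_ne_zero (hchar d (by omega) (by omega))
    (hchar (d - 1) (by omega) (by omega))) (hchar (11 - d) (by omega) (by omega)))
    (hchar (12 - d) (by omega) (by omega))

/-- all the roots of `D(1, X)` are simple -/
theorem u5g_rootMultiplicity_le_one (hchar : ∀ n : ℕ, 0 < n → n < 13 → (n : k) ≠ 0) (a b : k)
    (hdisc : 4 * (3 * a) ^ 3 + 27 * b ^ 2 ≠ 0) (r : k) : (u5gD a b).rootMultiplicity r ≤ 1 := by
  by_contra hcon
  have hd : 2 ≤ (u5gD a b).rootMultiplicity r := by omega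
  have hp : u5gD a b ≠ 0 := u5gD_ne_zero a b
  have hT : u5gT4 (u5gD a b) = 0 := by
    unfold u5gT4
    exact u5g_ode a b
  have key := u5g_mult (u5gD a b) hp hT r hd
  have hdvd := pow_rootMultiplicity_dvd (u5gD a b) r
  have hle : (u5gD a b).rootMultiplicity r ≤ 12 := by
    have h1 := natDegree_le_of_dvd hdvd hp
    rw [natDegree_pow, natDegree_X_sub_C, mul_one] at h1
    exact h1.trans (u5gD_natDegree_le a b)
  by_cases h10 : (u5gD a b).rootMultiplicity r ≤ 10
  · exact u5gN_ne_zero hchar _ hd h10 key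
  · have h11 : (X - C r) ^ 11 ∣ u5gD a b :=
      (pow_dvd_pow _ (by omega)).trans hdvd
    have h66 : (66 : k) ≠ 0 := by
      have e : (66 : k) = ((6 : ℕ) : k) * ((11 : ℕ) : k) := by norm_num
      rw [e]
      exact mul_ne_zero (hchar 6 (by norm_num) (by norm_num)) (hchar 11 (by norm_num) (by norm_num))
    have h220 : (220 : k) ≠ 0 := by
      have e : (220 : k) = ((2 : ℕ) : k) * ((10 : ℕ) : k) * ((11 : ℕ) : k) := by norm_num
      rw [e]
      exact mul_ne_zero (mul_ne_zero (hchar 2 (by norm_num) (by norm_num))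
        (hchar 10 (by norm_num) (by norm_num))) (hchar 11 (by norm_num) (by norm_num))
    exact hdisc (u5g_no_high (u5gD a b) a b r (u5gD_natDegree_le a b) h11 (u5gD_coeff_zero a b)
      (u5gD_coeff_one a b) (u5gD_coeff_two a b) (u5gD_coeff_three a b) h66 h220)

/-- `D(1, X)` is separable over an algebraically closed field -/
theorem u5g_D_separable_of_isAlgClosed [IsAlgClosed k]
    (hchar : ∀ n : ℕ, 0 < n → n < 13 → (n : k) ≠ 0) (a b : k)
    (hdisc : 4 * (3 * a) ^ 3 + 27 * b ^ 2 ≠ 0) : (u5gD a b).Separable := by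
  classical
  rw [← nodup_roots_iff_of_splits (u5gD_ne_zero a b) (IsAlgClosed.splits _),
    Multiset.nodup_iff_count_le_one]
  intro r
  rw [count_roots]
  exact u5g_rootMultiplicity_le_one hchar a b hdisc r

/-- **(G0-a)** `D(1, X)` is separable -/
theorem u5g_D_separable (hchar : ∀ n : ℕ, 0 < n → n < 13 → (n : k) ≠ 0) (a b : k)
    (hdisc : 4 * (3 * a) ^ 3 + 27 * b ^ 2 ≠ 0) : (u5gD a b).Separable := by
  set K := AlgebraicClosure k
  have hcharK : ∀ n : ℕ, 0 < n → n < 13 → (n : K) ≠ 0 := by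
    intro n h0 h13 h
    apply hchar n h0 h13
    apply (algebraMap k K).injective
    rw [map_natCast, map_zero]
    exact h
  have hdiscK : 4 * (3 * algebraMap k K a) ^ 3 + 27 * algebraMap k K b ^ 2 ≠ 0 := by
    intro h
    apply hdisc
    apply (algebraMap k K).injective
    rw [map_zero, ← h]
    simp only [map_add, map_mul, map_pow, map_ofNat]
  have := u5g_D_separable_of_isAlgClosed hcharK _ _ hdiscK
  rw [← u5gD_map] at this
  exact (separable_map (algebraMap k K)).1 this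

/-- `D(1, X)` is squarefree -/
theorem u5g_D_squarefree (hchar : ∀ n : ℕ, 0 < n → n < 13 → (n : k) ≠ 0) (a b : k)
    (hdisc : 4 * (3 * a) ^ 3 + 27 * b ^ 2 ≠ 0) : Squarefree (u5gD a b) :=
  (u5g_D_separable hchar a b hdisc).squarefree

/-- **(G0-b)** `D(1, X)` and `A(1, X)` are coprime -/
theorem u5g_D_coprime_A (hchar : ∀ n : ℕ, 0 < n → n < 13 → (n : k) ≠ 0) (a b : k)
    (hdisc : 4 * (3 * a) ^ 3 + 27 * b ^ 2 ≠ 0) : IsCoprime (u5gD a b) (u5gA a b) := by
  have hsep : IsCoprime (u5gD a b) (derivative (u5gD a b)) := u5g_D_separable hchar a b hdisc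
  have h1 : IsCoprime (u5gD a b) (derivative (u5gD a b) ^ 2) := hsep.pow_right
  have hhess := u5g_hess a b
  have h11 : ((11 : ℕ) : k) ≠ 0 := hchar 11 (by norm_num) (by norm_num)
  have h2 : ((2 : ℕ) : k) ≠ 0 := hchar 2 (by norm_num) (by norm_num)
  have h3 : ((3 : ℕ) : k) ≠ 0 := hchar 3 (by norm_num) (by norm_num)
  have h5808 : (5808 : k) ≠ 0 := by
    have e : (5808 : k) = ((2 : ℕ) : k) ^ 4 * ((3 : ℕ) : k) * ((11 : ℕ) : k) ^ 2 := by norm_num
    rw [e]
    exact mul_ne_zero (mul_ne_zero (pow_ne_zero _ h2) h3) (pow_ne_zero _ h11)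
  have h121 : (121 : k) ≠ 0 := by
    have e : (121 : k) = ((11 : ℕ) : k) ^ 2 := by norm_num
    rw [e]
    exact pow_ne_zero _ h11
  -- `121 D'² = 132 D D'' - 5808 A`
  have e1 : C (121 : k) * derivative (u5gD a b) ^ 2 =
      u5gD a b * (132 * derivative^[2] (u5gD a b)) + C (-5808 : k) * u5gA a b := by
    rw [map_neg, map_ofNat, map_ofNat]
    linear_combination hhess
  have hu121 : IsUnit (C (121 : k)) := isUnit_C.2 (isUnit_iff_ne_zero.2 h121)
  have hu5808 : IsUnit (C (-5808 : k)) := isUnit_C.2 (isUnit_iff_ne_zero.2 (neg_ne_zero.2 h5808))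
  have h3' : IsCoprime (u5gD a b) (C (121 : k) * derivative (u5gD a b) ^ 2) :=
    (isCoprime_mul_unit_left_right hu121 _ _).2 h1
  rw [e1] at h3'
  have h4 : IsCoprime (u5gD a b) (C (-5808 : k) * u5gA a b) := by
    rw [add_comm] at h3'
    exact IsCoprime.of_add_mul_left_right h3'
  exact (isCoprime_mul_unit_left_right hu5808 _ _).1 h4

end Field

end Fermat.Agent.U5
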