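import Mathlib
import Fermat.Agent.U5.Gen.Sep

/-!
# Program U, leaf (G) : the 3-division polynomial of the family has no root in `k[X]` (prefix `u5g`)

`k` a field with `1, …, 12` invertible, `a b : k`, `4 (3a)³ + 27 b² ≠ 0`, `𝒜 = A(1,X)`, `ℬ = B(1,X)`,
`𝒟 = D(1,X)`.  Then there is no `P ∈ k[X]` with `3P⁴ + 6𝒜P² + 12ℬP - 𝒜² = 0`.

Proof (no Vélu formulas).  `U := 3P² + 𝒜`, `Y := P³ + 𝒜P + ℬ` : `U² = 12 P Y` and
`U³ - 54 Y² = -2 (4𝒜³ + 27ℬ²) = -2 disc · 𝒟⁵`.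
(i) no irreducible `π` divides both `Y` and `𝒟` : `π ∣ U`; if `π ∣ P` then `π ∣ 𝒜`, excluded by
`u5g_D_coprime_A`; otherwise a two-step descent (`U = π²U₂`, `Y = π⁴Y₂`) gives `π² ∣ 𝒟`, excluded by
`u5g_D_squarefree`;
(ii) no irreducible `π` divides `Y` at all : `π ∤ 𝒟` gives `π ∤ U³ - 54Y²`, so `π ∤ U`, against
`π ∣ 12PY = U²`.  So `Y` is a non-zero constant;
(iii) degrees : `3 deg U = 5 deg 𝒟 ≥ 20`, `deg P = 2 deg U ≥ 14`, so `deg Y = 3 deg P > 0`.
-/

set_option autoImplicit false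
set_option linter.unusedSimpArgs false
set_option linter.unusedVariables false

namespace Fermat.Agent.U5

open Polynomial

section Deg

variable {R : Type*} [CommRing R]

theorem u5gA_natDegree_le (a b : R) : (u5gA a b).natDegree ≤ 20 := by
  unfold u5gA u5fA
  simp only [u5cA0, u5cA1, u5cA2, u5cA3, u5cA4, u5cA5, u5cA6, u5cA7, u5cA8, u5cA9, u5cA10, u5cA11,
    u5cA12, u5cA13, u5cA14, u5cA15, u5cA16, u5cA17, u5cA18, u5cA19, u5cA20]
  compute_degree!

theorem u5gB_natDegree_le (a b : R) : (u5gB a b).natDegree ≤ 30 := by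
  unfold u5gB u5fB
  simp only [u5cB0, u5cB1, u5cB2, u5cB3, u5cB4, u5cB5, u5cB6, u5cB7, u5cB8, u5cB9, u5cB10, u5cB11,
    u5cB12, u5cB13, u5cB14, u5cB15, u5cB16, u5cB17, u5cB18, u5cB19, u5cB20, u5cB21, u5cB22, u5cB23,
    u5cB24, u5cB25, u5cB26, u5cB27, u5cB28, u5cB29, u5cB30]
  compute_degree!

theorem u5gD_coeff_four (a b : R) : (u5gD a b).coeff 4 = -1485 * a ^ 2 := by
  rw [u5gD_eq]
  simp only [coeff_add, coeff_C_mul_X_pow, coeff_C_mul_X, coeff_C]
  simp [u5cD4]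

theorem u5gD_coeff_six (a b : R) : (u5gD a b).coeff 6 = -5940 * a ^ 3 - 2640 * b ^ 2 := by
  rw [u5gD_eq]
  simp only [coeff_add, coeff_C_mul_X_pow, coeff_C_mul_X, coeff_C]
  simp [u5cD6]

/-- the syzygy on the line `(1, X)` -/
theorem u5g_syz (a b : R) :
    4 * u5gA a b ^ 3 + 27 * u5gB a b ^ 2 = C (4 * (3 * a) ^ 3 + 27 * b ^ 2) * u5gD a b ^ 5 := by
  have := u5_syz (C a) (C b) (1 : R[X]) X
  unfold u5gA u5gB u5gD
  rw [this]
  simp only [map_add, map_mul, map_pow, map_ofNat]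

end Deg

section Field

variable {k : Type*} [Field k]

theorem u5gD_four_le_natDegree (hchar : ∀ n : ℕ, 0 < n → n < 13 → (n : k) ≠ 0) (a b : k)
    (hdisc : 4 * (3 * a) ^ 3 + 27 * b ^ 2 ≠ 0) : 4 ≤ (u5gD a b).natDegree := by
  have h2 : ((2 : ℕ) : k) ≠ 0 := hchar 2 (by norm_num) (by norm_num)
  have h3 : ((3 : ℕ) : k) ≠ 0 := hchar 3 (by norm_num) (by norm_num)
  have h5 : ((5 : ℕ) : k) ≠ 0 := hchar 5 (by norm_num) (by norm_num)
  have h11 : ((11 : ℕ) : k) ≠ 0 := hchar 11 (by norm_num) (by norm_num)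
  by_cases ha : a = 0
  · have hb : b ≠ 0 := by
      rintro rfl
      apply hdisc
      rw [ha]; ring
    have h6 : (u5gD a b).coeff 6 ≠ 0 := by
      rw [u5gD_coeff_six, ha]
      have e : (-5940 * (0 : k) ^ 3 - 2640 * b ^ 2) =
          -(((2 : ℕ) : k) ^ 4 * ((3 : ℕ) : k) * ((5 : ℕ) : k) * ((11 : ℕ) : k) * b ^ 2) := by
        push_cast; ring
      rw [e]
      exact neg_ne_zero.2 (mul_ne_zero (mul_ne_zero (mul_ne_zero (mul_ne_zero (pow_ne_zero _ h2) h3)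
        h5) h11) (pow_ne_zero _ hb))
    exact le_trans (by norm_num) (le_natDegree_of_ne_zero h6)
  · have h4 : (u5gD a b).coeff 4 ≠ 0 := by
      rw [u5gD_coeff_four]
      have e : (-1485 * a ^ 2 : k) =
          -(((3 : ℕ) : k) ^ 3 * ((5 : ℕ) : k) * ((11 : ℕ) : k) * a ^ 2) := by
        push_cast; ring
      rw [e]
      exact neg_ne_zero.2 (mul_ne_zero (mul_ne_zero (mul_ne_zero (pow_ne_zero _ h3) h5) h11)
        (pow_ne_zero _ ha))
    exact le_natDegree_of_ne_zero h4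

/-- (i) the descent : no prime divides both `Y` and a squarefree `D` coprime to `A`. -/
theorem u5g_no_common (h2k : (2 : k) ≠ 0) (h3k : (3 : k) ≠ 0) (D A P U Y : k[X]) (c : k)
    (hc : c ≠ 0) (hsq : Squarefree D)
    (hcop : IsCoprime D A) (hU : U = 3 * P ^ 2 + A) (h1 : U ^ 2 = 12 * P * Y)
    (h2 : U ^ 3 - 54 * Y ^ 2 = C c * D ^ 5) (π : k[X]) (hπ : Irreducible π) (hπY : π ∣ Y)
    (hπD : π ∣ D) : False := by
  have hprime : Prime π := hπ.prime
  have hπ0 : π ≠ 0 := hπ.ne_zero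
  have h12k : (12 : k) ≠ 0 := by
    have e : (12 : k) = 2 * 2 * 3 := by norm_num
    rw [e]
    exact mul_ne_zero (mul_ne_zero h2k h2k) h3k
  have hu12 : IsUnit (12 : k[X]) := by
    have : (12 : k[X]) = C (12 : k) := (map_ofNat C 12).symm
    rw [this]
    exact isUnit_C.2 (isUnit_iff_ne_zero.2 h12k)
  have hπU : π ∣ U := by
    apply hprime.dvd_of_dvd_pow (n := 2)
    rw [h1]
    exact Dvd.dvd.mul_left hπY _
  by_cases hπP : π ∣ P
  · -- `π ∣ A`
    have hπA : π ∣ A := by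
      have : A = U - 3 * P ^ 2 := by rw [hU]; ring
      rw [this]
      exact dvd_sub hπU (Dvd.dvd.mul_left (Dvd.dvd.pow hπP two_ne_zero) _)
    exact hπ.not_isUnit (hcop.isUnit_of_dvd' hπD hπA)
  · have hcopP : IsCoprime (π ^ 2) (12 * P) := by
      have h0 : IsCoprime π P := (hπ.coprime_iff_not_dvd).2 hπP
      exact (isCoprime_mul_unit_left_right hu12 _ _).2 h0.pow_left
    -- the key step : `π² x² = 12 P y ⟹ π² ∣ y`
    have step : ∀ x y : k[X], (π * x) ^ 2 = 12 * P * y → π ^ 2 ∣ y := by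
      intro x y h
      apply hcopP.dvd_of_dvd_mul_left
      exact ⟨x ^ 2, by rw [← h]; ring⟩
    obtain ⟨D₁, rfl⟩ := hπD
    obtain ⟨U₁, rfl⟩ := hπU
    obtain ⟨Y₁, rfl⟩ := step U₁ Y h1
    have h1' : U₁ ^ 2 = 12 * P * Y₁ := by
      apply mul_left_cancel₀ (pow_ne_zero 2 hπ0)
      linear_combination h1
    have h2' : U₁ ^ 3 - 54 * π * Y₁ ^ 2 = C c * π ^ 2 * D₁ ^ 5 := by
      apply mul_left_cancel₀ (pow_ne_zero 3 hπ0)
      linear_combination h2
    have hπU₁ : π ∣ U₁ := by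
      apply hprime.dvd_of_dvd_pow (n := 3)
      exact ⟨54 * Y₁ ^ 2 + C c * π * D₁ ^ 5, by linear_combination h2'⟩
    obtain ⟨U₂, rfl⟩ := hπU₁
    obtain ⟨Y₂, rfl⟩ := step U₂ Y₁ h1'
    have h2'' : C c * D₁ ^ 5 = π * (U₂ ^ 3 - 54 * π ^ 2 * Y₂ ^ 2) := by
      apply mul_left_cancel₀ (pow_ne_zero 2 hπ0)
      linear_combination (-1 : k[X]) * h2'
    have hπD₁ : π ∣ D₁ := by
      have h3 : π ∣ C c * D₁ ^ 5 := ⟨_, h2''⟩
      rcases hprime.dvd_or_dvd h3 with h | h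
      · exact absurd (isUnit_of_dvd_unit h (isUnit_C.2 (isUnit_iff_ne_zero.2 hc))) hπ.not_isUnit
      · exact hprime.dvd_of_dvd_pow h
    exact hπ.not_isUnit (hsq π (mul_dvd_mul_left π hπD₁))

/-- (ii) `Y` is a non-zero constant. -/
theorem u5g_Y_const (h2k : (2 : k) ≠ 0) (h3k : (3 : k) ≠ 0) (D A P U Y : k[X]) (c : k)
    (hc : c ≠ 0) (hD0 : D ≠ 0) (hsq : Squarefree D)
    (hcop : IsCoprime D A) (hU : U = 3 * P ^ 2 + A) (h1 : U ^ 2 = 12 * P * Y)
    (h2 : U ^ 3 - 54 * Y ^ 2 = C c * D ^ 5) : IsUnit Y := by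
  by_contra hY
  have hY0 : Y ≠ 0 := by
    rintro rfl
    rw [mul_zero] at h1
    have hU0 : U = 0 := pow_eq_zero_iff (two_ne_zero) |>.1 h1
    rw [hU0] at h2
    have : C c * D ^ 5 = 0 := by rw [← h2]; ring
    rcases mul_eq_zero.1 this with h | h
    · exact hc (C_eq_zero.1 h)
    · exact hD0 (pow_eq_zero_iff (by norm_num) |>.1 h)
  obtain ⟨π, hπ, hπY⟩ := WfDvdMonoid.exists_irreducible_factor hY hY0
  have hprime : Prime π := hπ.prime
  have hπD : ¬ π ∣ D := fun h =>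
    u5g_no_common h2k h3k D A P U Y c hc hsq hcop hU h1 h2 π hπ hπY h
  have hπU : π ∣ U := by
    apply hprime.dvd_of_dvd_pow (n := 2)
    rw [h1]
    exact Dvd.dvd.mul_left hπY _
  have h3 : π ∣ C c * D ^ 5 := by
    rw [← h2]
    exact dvd_sub (Dvd.dvd.pow hπU (by norm_num))
      (Dvd.dvd.mul_left (Dvd.dvd.pow hπY two_ne_zero) _)
  rcases hprime.dvd_or_dvd h3 with h | h
  · exact absurd (isUnit_of_dvd_unit h (isUnit_C.2 (isUnit_iff_ne_zero.2 hc))) hπ.not_isUnit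
  · exact hπD (hprime.dvd_of_dvd_pow h)

/-- **(G), general field** : the 3-division polynomial of the family has no root in `k[X]`. -/
theorem u5g_gen (hchar : ∀ n : ℕ, 0 < n → n < 13 → (n : k) ≠ 0) (a b : k)
    (hdisc : 4 * (3 * a) ^ 3 + 27 * b ^ 2 ≠ 0) (P : k[X]) :
    3 * P ^ 4 + 6 * u5gA a b * P ^ 2 + 12 * u5gB a b * P - u5gA a b ^ 2 ≠ 0 := by
  intro hψ
  have h2k : (2 : k) ≠ 0 := by
    have := hchar 2 (by norm_num) (by norm_num)
    simpa using this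
  have h3k : (3 : k) ≠ 0 := by
    have := hchar 3 (by norm_num) (by norm_num)
    simpa using this
  set A := u5gA a b with hA
  set B := u5gB a b with hB
  set D := u5gD a b with hD
  set U : k[X] := 3 * P ^ 2 + A with hU
  set Y : k[X] := P ^ 3 + A * P + B with hY
  set d₀ : k := 4 * (3 * a) ^ 3 + 27 * b ^ 2 with hd₀
  have hsyz : 4 * A ^ 3 + 27 * B ^ 2 = C d₀ * D ^ 5 := u5g_syz a b
  have h1 : U ^ 2 = 12 * P * Y := by
    rw [hU, hY]
    linear_combination (-1 : k[X]) * hψ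
  have h2 : U ^ 3 - 54 * Y ^ 2 = C (-2 * d₀) * D ^ 5 := by
    have e : (C (-2 * d₀) : k[X]) = -2 * C d₀ := by
      rw [map_mul, map_neg, map_ofNat]
    rw [e, hU, hY]
    linear_combination (-2 : k[X]) * hsyz + (-9 * P ^ 2 - 9 * A) * hψ
  have hc : (-2 * d₀ : k) ≠ 0 := mul_ne_zero (neg_ne_zero.2 h2k) hdisc
  have hD0 : D ≠ 0 := u5gD_ne_zero a b
  have hYu : IsUnit Y := u5g_Y_const h2k h3k D A P U Y (-2 * d₀) hc hD0
    (u5g_D_squarefree hchar a b hdisc) (u5g_D_coprime_A hchar a b hdisc) rfl h1 h2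
  obtain ⟨y₀, hy₀, hYy⟩ := Polynomial.isUnit_iff.1 hYu
  have hy₀0 : y₀ ≠ 0 := hy₀.ne_zero
  -- degrees
  have hδ : 4 ≤ D.natDegree := u5gD_four_le_natDegree hchar a b hdisc
  have hdegU : 3 * U.natDegree = 5 * D.natDegree := by
    have e54 : (C (54 * y₀ ^ 2) : k[X]) = 54 * Y ^ 2 := by
      rw [← hYy, map_mul, map_pow, map_ofNat]
    have e : U ^ 3 = C (-2 * d₀) * D ^ 5 + C (54 * y₀ ^ 2) := by
      rw [e54]
      linear_combination h2
    have h5 : (C (-2 * d₀) * D ^ 5).natDegree = 5 * D.natDegree := by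
      rw [natDegree_C_mul hc, natDegree_pow]
    have := congrArg natDegree e
    rw [natDegree_pow, natDegree_add_C, h5] at this
    exact this
  have hdegP : P.natDegree = 2 * U.natDegree := by
    have e : U ^ 2 = C (12 * y₀) * P := by
      rw [h1, ← hYy, map_mul, map_ofNat]; ring
    have h12y : (12 * y₀ : k) ≠ 0 := by
      have e12 : (12 : k) = 2 * 2 * 3 := by norm_num
      rw [e12]
      exact mul_ne_zero (mul_ne_zero (mul_ne_zero h2k h2k) h3k) hy₀0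
    have := congrArg natDegree e
    rw [natDegree_pow, natDegree_C_mul h12y] at this
    exact this.symm
  have hP14 : 14 ≤ P.natDegree := by omega
  have hP0 : P ≠ 0 := by
    rintro rfl
    rw [natDegree_zero] at hP14
    omega
  -- `deg Y = 3 deg P`
  have hlow : (A * P + B).natDegree < (P ^ 3).natDegree := by
    rw [natDegree_pow]
    refine lt_of_le_of_lt (natDegree_add_le _ _) (max_lt ?_ ?_)
    · refine lt_of_le_of_lt natDegree_mul_le ?_
      have hA20 : A.natDegree ≤ 20 := u5gA_natDegree_le a b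
      omega
    · have hB30 : B.natDegree ≤ 30 := u5gB_natDegree_le a b
      omega
  have hYdeg : Y.natDegree = 3 * P.natDegree := by
    have e : Y = P ^ 3 + (A * P + B) := by rw [hY]; ring
    rw [e, natDegree_add_eq_left_of_natDegree_lt hlow, natDegree_pow]
  rw [← hYy, natDegree_C] at hYdeg
  omega

end Field

end Fermat.Agent.U5
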