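import Mathlib
import Fermat.Agent.U5.Gen.Main
import Fermat.Agent.U5.HitAsm

/-!
# Program U : the leaf `U5LeafGen` (G) is a theorem

`u5g_leafGen : U5LeafGen` (literal Prop of `U5/HitAsm.lean`), from `u5g_gen` over `k = ℚ`.
-/

set_option autoImplicit false

namespace Fermat.Agent.U5

open Polynomial

/-- **(G)** : on the line `(m, n) = (1, X)` the 3-division polynomial of the family has no root in
`ℚ[X]`. -/
theorem u5g_leafGen : U5LeafGen := by
  intro a b hdisc hex
  obtain ⟨P, hP⟩ := hex
  have hchar : ∀ n : ℕ, 0 < n → n < 13 → (n : ℚ) ≠ 0 := fun n h0 _ =>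
    Nat.cast_ne_zero.2 h0.ne'
  exact u5g_gen hchar a b hdisc P hP

end Fermat.Agent.U5
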