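import Mathlib
import Fermat.Agent.U5.Gen.Sep

/-!
# Program U, leaf (F0) in evaluated form : `U5LeafMult` (prefix `u5g`)

`u5g_leafMult` : over a field `k` with `2, 3, 5, 7, 11` invertible, for `a b n : k` with
`4 (3a)³ + 27 b² ≠ 0` : `D(1, n) = 0 → A(1, n) ≠ 0` (the binary forms `D` and `A` have no common zero
in the chart `m = 1`).  This is helper27's `U5LeafMult` (U5/Fam.lean) literally.
-/

set_option autoImplicit false
set_option linter.unusedSimpArgs false
set_option linter.unusedVariables false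

namespace Fermat.Agent.U5

open Polynomial

section Map

variable {R S : Type*} [CommRing R] [CommRing S]

theorem u5g_map_fD (f : R →+* S) (a b m n : R) :
    f (u5fD a b m n) = u5fD (f a) (f b) (f m) (f n) := by
  unfold u5fD
  simp only [u5cD0, u5cD1, u5cD2, u5cD3, u5cD4, u5cD5, u5cD6, u5cD7, u5cD8, u5cD9, u5cD10, u5cD11,
    u5cD12, map_add, map_mul, map_sub, map_neg, map_pow, map_ofNat, map_one, map_zero]

theorem u5g_map_fA (f : R →+* S) (a b m n : R) :
    f (u5fA a b m n) = u5fA (f a) (f b) (f m) (f n) := by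
  unfold u5fA
  simp only [u5cA0, u5cA1, u5cA2, u5cA3, u5cA4, u5cA5, u5cA6, u5cA7, u5cA8, u5cA9, u5cA10, u5cA11,
    u5cA12, u5cA13, u5cA14, u5cA15, u5cA16, u5cA17, u5cA18, u5cA19, u5cA20,
    map_add, map_mul, map_sub, map_neg, map_pow, map_ofNat, map_one, map_zero]

theorem u5gD_eval (a b n : R) : (u5gD a b).eval n = u5fD a b 1 n := by
  have := u5g_map_fD (evalRingHom n) (C a) (C b) 1 X
  simpa [u5gD] using this

theorem u5gA_eval (a b n : R) : (u5gA a b).eval n = u5fA a b 1 n := by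
  have := u5g_map_fA (evalRingHom n) (C a) (C b) 1 X
  simpa [u5gA] using this

end Map

/-- `2, 3, 5, 7, 11` invertible ⟹ `1, …, 12` invertible -/
theorem u5g_char_of_primes {k : Type*} [Field k] (h2 : (2 : k) ≠ 0) (h3 : (3 : k) ≠ 0)
    (h5 : (5 : k) ≠ 0) (h7 : (7 : k) ≠ 0) (h11 : (11 : k) ≠ 0) :
    ∀ n : ℕ, 0 < n → n < 13 → (n : k) ≠ 0 := by
  intro n h0 h13
  interval_cases n
  · simp
  · simpa using h2
  · simpa using h3
  · have : ((4 : ℕ) : k) = 2 * 2 := by norm_num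
    rw [this]; exact mul_ne_zero h2 h2
  · simpa using h5
  · have : ((6 : ℕ) : k) = 2 * 3 := by norm_num
    rw [this]; exact mul_ne_zero h2 h3
  · simpa using h7
  · have : ((8 : ℕ) : k) = 2 * 2 * 2 := by norm_num
    rw [this]; exact mul_ne_zero (mul_ne_zero h2 h2) h2
  · have : ((9 : ℕ) : k) = 3 * 3 := by norm_num
    rw [this]; exact mul_ne_zero h3 h3
  · have : ((10 : ℕ) : k) = 2 * 5 := by norm_num
    rw [this]; exact mul_ne_zero h2 h5
  · simpa using h11
  · have : ((12 : ℕ) : k) = 2 * 2 * 3 := by norm_num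
    rw [this]; exact mul_ne_zero (mul_ne_zero h2 h2) h3

/-- **(F0), evaluated form** = helper27's `U5LeafMult`, literally. -/
theorem u5g_leafMult : ∀ (k : Type) [Field k], (2 : k) ≠ 0 → (3 : k) ≠ 0 → (5 : k) ≠ 0 →
    (7 : k) ≠ 0 → (11 : k) ≠ 0 → ∀ a b n : k, 4 * (3 * a) ^ 3 + 27 * b ^ 2 ≠ 0 →
    u5fD a b 1 n = 0 → u5fA a b 1 n ≠ 0 := by
  intro k _ h2 h3 h5 h7 h11 a b n hdisc hD hA
  have hchar := u5g_char_of_primes h2 h3 h5 h7 h11
  obtain ⟨u, v, huv⟩ := u5g_D_coprime_A hchar a b hdisc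
  have := congrArg (eval n) huv
  rw [eval_add, eval_mul, eval_mul, u5gD_eval, u5gA_eval, hD, hA, mul_zero, mul_zero, add_zero,
    eval_one] at this
  exact zero_ne_one this

/-- the same in any universe -/
theorem u5g_leafMult' {k : Type*} [Field k] (hchar : ∀ n : ℕ, 0 < n → n < 13 → (n : k) ≠ 0)
    (a b n : k) (hdisc : 4 * (3 * a) ^ 3 + 27 * b ^ 2 ≠ 0) (hD : u5fD a b 1 n = 0) :
    u5fA a b 1 n ≠ 0 := by
  intro hA
  obtain ⟨u, v, huv⟩ := u5g_D_coprime_A hchar a b hdisc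
  have := congrArg (eval n) huv
  rw [eval_add, eval_mul, eval_mul, u5gD_eval, u5gA_eval, hD, hA, mul_zero, mul_zero, add_zero,
    eval_one] at this
  exact zero_ne_one this

end Fermat.Agent.U5
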